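/-
S55 : captain's integration test (local).  Three stubs: locPkg_exists, brPkg, T5.
-/
import Fermat.Agent.S55.Bridge.MuCoef
import Fermat.Agent.S55.Formal.F1
import Fermat.Agent.S55.F2.Final
import Fermat.Agent.S55.Dict.Main
import Fermat.Agent.S55.Units.U4
import Fermat.Agent.S55.Units.U6Exist
import Fermat.Agent.S55.Units.T1.Top
import Fermat.Agent.S55.Asm.Final

set_option autoImplicit false

namespace Fermat.Agent.S55.CaptainTest

variable {S : Finset Nat.Primes} {p : ℕ} [Fact p.Prime]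

theorem locPkg_exists (p : ℕ) [Fact p.Prime] (q : Nat.Primes) : Nonempty (LocPkg p q) := sorry

theorem brPkg (hp2 : p ≠ 2) (L : ∀ q, LocPkg p q) (N : Dict.NITOut p) : BrPkg p L := sorry

theorem T5 (hp2 : p ≠ 2) (hpS : ExtCitation.pPrime p ∈ S) (L : ∀ q, LocPkg p q) (B : BrPkg p L) :
    ∀ U ∈ (lvlS S).carrier, ActsTrivially U (Mu p) →
    ∃ U' ∈ (lvlS S).carrier, ∃ h : U' ≤ U, ∃ _ : Finite (GQ ⧸ U'),
      ∀ x ∈ Sha S (IndMod (GQ ⧸ U') (Mu p)) 2,
        Hsm.map (IndMod.push (Mu p) (quotProj h)) 2 x = 0 := sorry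

theorem arithInput_exists (hp2 : p ≠ 2) (hpS : ExtCitation.pPrime p ∈ S) :
    Nonempty (ArithInput S p) := by
  have hp : p.Prime := Fact.out
  have L : ∀ q, LocPkg p q := fun q => Classical.choice (locPkg_exists p q)
  have N := Dict.nitOut_of_locPkg hp hp2 L
  have B := brPkg hp2 L N
  exact ⟨{
    t := fun q => (L q).t
    coefMu := Bridge.coefMu S hpS
    cardMu := Bridge.cardMu p
    T1 := T1.top' hp2 hpS L (Units.needB1_of_brPkg B) (Units.needB3_of_brPkg B S)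
      (Units.needB4_of_brPkg B S hpS)
    T2 := Asm.T2' S L
    T3₁ := Asm.T3₁ S L
    T3₂ := Asm.T3₂ S L
    T4₀ := Units.T4₀ hpS B
    T4₁ := Units.T4₁ hpS B
    T5 := T5 hp2 hpS L B }⟩

theorem card_Sha (hp2 : p ≠ 2) (hpS : ExtCitation.pPrime p ∈ S)
    (M : Type) [AddCommGroup M] [DistribMulAction GQ M] (hM : IsCoef S p M) :
    Finite (Sha S M 2) ∧ Nat.card (Sha S M 2) = Nat.card (Sha S (HomMod M (Mu p)) 1) := by
  obtain ⟨I⟩ := arithInput_exists (S := S) hp2 hpS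
  obtain ⟨C⟩ := F2.contract_of_arithInput I
  exact Formal.F1 ⟨_, hpS⟩ C M hM

end Fermat.Agent.S55.CaptainTest
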