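/-
S55 / FINAL ASSEMBLY (helper121), WORK IN PROGRESS.
Every block export which is not yet on main is a local stub (`sorry`) with the EXACT expected shape:
* `locPkg_exists`  : LOC   (helper241, Loc/Pkg.lean)
* `brPkg`          : BR    (helper176, BR/Pkg/Main.lean; same shape as BR/Pkg/WIP/Main.lean)
* `T5_stub`        : EXIST (helper115, layer C)
Everything else is imported from landed, complete files.
-/
import Fermat.Statements.S55
import Fermat.Agent.S55.Asm.Final
import Fermat.Agent.S55.Units.U4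
import Fermat.Agent.S55.Units.T1.Top
import Fermat.Agent.S55.Bridge.MuCoef
import Fermat.Agent.S55.Bridge.Glue
import Fermat.Agent.S55.Formal.F1
import Fermat.Agent.S55.F2.Final
import Fermat.Agent.S55.Dict.Main

set_option autoImplicit false

namespace Fermat.Agent.S55.Asm.WIP

variable {p : ℕ} [Fact p.Prime]

/-- STUB (LOC). -/
theorem locPkg_exists (p : ℕ) [Fact p.Prime] (q : Nat.Primes) : Nonempty (LocPkg p q) := sorry

/-- STUB (BR). -/
theorem brPkg (hp2 : p ≠ 2) (L : ∀ q, LocPkg p q) (N : Dict.NITOut p) : BrPkg p L := sorry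

/-- STUB (EXIST): the field `T5` of `ArithInput`. -/
theorem T5_stub (hp2 : p ≠ 2) (S : Finset Nat.Primes) (hpS : ExtCitation.pPrime p ∈ S)
    (L : ∀ q, LocPkg p q) (B : BrPkg p L) :
    ∀ U ∈ (lvlS S).carrier, ActsTrivially U (Mu p) →
    ∃ U' ∈ (lvlS S).carrier, ∃ h : U' ≤ U, ∃ _ : Finite (GQ ⧸ U'),
      ∀ x ∈ Sha S (IndMod (GQ ⧸ U') (Mu p)) 2,
        Hsm.map (IndMod.push (Mu p) (quotProj h)) 2 x = 0 := sorry

/-- The arithmetic input. -/
theorem arithInput_exists (hp2 : p ≠ 2) (S : Finset Nat.Primes)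
    (hpS : ExtCitation.pPrime p ∈ S) : Nonempty (ArithInput S p) := by
  have L : ∀ q, LocPkg p q := fun q => (locPkg_exists p q).some
  have B : BrPkg p L := brPkg hp2 L (Dict.nitOut_of_locPkg Fact.out hp2 L)
  exact ⟨{ t := fun q => (L q).t
           coefMu := Bridge.coefMu S hpS
           cardMu := Bridge.cardMu p
           T1 := T1.top' hp2 hpS L (Units.needB1_of_brPkg B) (Units.needB3_of_brPkg B S)
             (Units.needB4_of_brPkg B S hpS)
           T2 := Asm.T2' S L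
           T3₁ := Asm.T3₁ S L
           T3₂ := Asm.T3₂ S L
           T4₀ := Units.T4₀ hpS B
           T4₁ := Units.T4₁ hpS B
           T5 := T5_stub hp2 S hpS L B }⟩

/-- What BRIDGE consumes. -/
theorem card_Sha (hp2 : p ≠ 2) (S : Finset Nat.Primes) (hpS : ExtCitation.pPrime p ∈ S)
    (M : Type) [AddCommGroup M] [DistribMulAction GQ M] (hM : IsCoef S p M) :
    Finite (Sha S M 2) ∧ Nat.card (Sha S M 2) = Nat.card (Sha S (HomMod M (Mu p)) 1) := by
  obtain ⟨I⟩ := arithInput_exists hp2 S hpS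
  obtain ⟨C⟩ := F2.contract_of_arithInput I
  exact Formal.F1 ⟨_, hpS⟩ C M hM

open CategoryTheory Module groupCohomology ExtCitation in
/-- The frozen statement. -/
theorem result
    {p : ℕ} [Fact p.Prime] (hp2 : p ≠ 2) (S : Finset Nat.Primes) (hpS : pPrime p ∈ S)
    (M : Rep (ZMod p) (AlgebraicClosure ℚ ≃ₐ[ℚ] AlgebraicClosure ℚ))
    [FiniteDimensional (ZMod p) M]
    (hsm : ∀ m : M, ∃ F : IntermediateField ℚ (AlgebraicClosure ℚ), FiniteDimensional ℚ F ∧
      ∀ s ∈ F.fixingSubgroup, M.ρ s m = m)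
    (hMur : ∀ q : Nat.Primes, q ∉ S → ∀ A : ValuationSubring (AlgebraicClosure ℚ),
      A.LiesOverPrime (q : ℕ) → ∀ g ∈ A.inertiaSubgroupIn ℚ, M.ρ g = 1) :
    ∃ B : sha₁ S (M.dualTwist (cycloChar p)) →ₗ[ZMod p] sha₂ S M →ₗ[ZMod p] ZMod p,
      (∀ y, (∀ x, B y x = 0) → y = 0) ∧ (∀ x, (∀ y, B y x = 0) → x = 0) :=
  Fermat.Agent.S55.Bridge.frozen_of_F1 hp2 S M hsm hMur
    (fun N _ _ hfin hsmooth hN => card_Sha hp2 S hpS N ⟨hfin, hN, hsmooth⟩)

end Fermat.Agent.S55.Asm.WIP
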